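import Fermat.Agent.Torsion.Kummer
import Fermat.Agent.Curve.Places
import Fermat.Agent.Curve.Canonical
import Mathlib.FieldTheory.IsAlgClosed.Basic

/-!
# Functions without zeros and poles are constant
-/

set_option autoImplicit false

noncomputable section

namespace Fermat.Agent.Torsion

open AlgebraicCurve

variable {K F : Type*} [Field K] [Field F] [Algebra K F]

theorem constantsAreConstant [IsAlgClosed K] [Fermat.Agent.Curve.IsFunctionField1 K F] :
    ConstantsAreConstant K F := by
  intro f _ hf
  have halg : IsAlgebraic K f :=
    Fermat.Agent.Curve.isAlgebraic_of_forall_ord_nonneg fun v => (hf v).ge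
  obtain ⟨c, hc⟩ := minpoly.mem_range_of_degree_eq_one K f
    (IsAlgClosed.degree_eq_one_of_irreducible K (minpoly.irreducible halg.isIntegral))
  exact ⟨c, hc⟩

theorem constantsAreConstant_of_isCurveOver [IsAlgClosed K] [IsCurveOver K F]
    [Algebra.EssFiniteType K F] : ConstantsAreConstant K F :=
  have : Fermat.Agent.Curve.IsFunctionField1 K F :=
    Fermat.Agent.Curve.isFunctionField1_of_essFiniteType
  constantsAreConstant

end Fermat.Agent.Torsion
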