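import Fermat.Prelude.Def_AlgebraicCurve_DivisorClassGroup
import Mathlib.FieldTheory.IsAlgClosed.Basic
import Mathlib.GroupTheory.QuotientGroup.Basic
import Mathlib.SetTheory.Cardinal.Finite

/-!
# Kummer description of the `n`-torsion of `Pic⁰`

`Sel n` is the group of nonzero functions all of whose orders are divisible by `n`, modulo `n`-th
powers.  When the constants are `n`-divisible and are the only functions without zeros and poles,
it is isomorphic to the `n`-torsion of `Pic⁰`.
-/

set_option autoImplicit false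

noncomputable section

namespace Fermat.Agent.Torsion

open AlgebraicCurve

variable (K F : Type*) [Field K] [Field F] [Algebra K F]

/-- Every function without zeros and poles is a constant. -/
def ConstantsAreConstant : Prop :=
  ∀ f : F, f ≠ 0 → (∀ v : Place K F, v.ord f = 0) → f ∈ (algebraMap K F).range

/-- Nonzero functions all of whose orders are divisible by `n`. -/
def selmer (n : ℕ) : Subgroup Fˣ where
  carrier := {f | ∀ v : Place K F, (n : ℤ) ∣ v.ord (f : F)}
  one_mem' v := by simp
  mul_mem' {f g} hf hg v := by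
    rw [Units.val_mul, v.ord_mul f.ne_zero g.ne_zero]
    exact dvd_add (hf v) (hg v)
  inv_mem' {f} hf v := by
    rw [Units.val_inv_eq_inv_val, v.ord_inv, dvd_neg]
    exact hf v

/-- The `n`-th powers inside `selmer`. -/
def selmerPowers (n : ℕ) : Subgroup (selmer K F n) :=
  (powMonoidHom n : Fˣ →* Fˣ).range.subgroupOf (selmer K F n)

/-- Functions with orders divisible by `n`, modulo `n`-th powers. -/
abbrev Sel (n : ℕ) : Type _ := selmer K F n ⧸ selmerPowers K F n

variable {K F}

theorem mem_selmer {n : ℕ} {f : Fˣ} :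
    f ∈ selmer K F n ↔ ∀ v : Place K F, (n : ℤ) ∣ v.ord (f : F) := Iff.rfl

theorem mem_selmerPowers {n : ℕ} {f : selmer K F n} :
    f ∈ selmerPowers K F n ↔ ∃ h : Fˣ, h ^ n = f.1 := Iff.rfl

theorem ord_natPow (v : Place K F) (f : F) (n : ℕ) : v.ord (f ^ n) = n * v.ord f := by
  rw [← zpow_natCast, v.ord_zpow]

/-- Only `0` is killed by `1`. -/
theorem natCard_torsion_one : Nat.card (Pic0.torsion K F 1) = 1 := by
  have : Pic0.torsion K F 1 = ⊥ := by
    ext x
    rw [Pic0.mem_torsion, AddSubgroup.mem_bot, Nat.cast_one, one_zsmul]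
  rw [this, AddSubgroup.card_bot]

section

variable [HasPrincipalDivisors K F]

/-- The divisor of a nonzero function. -/
def divisorOf (f : Fˣ) : Divisor K F :=
  (HasPrincipalDivisors.exists_divisor (K := K) (f : F) f.ne_zero).choose

theorem divisorOf_apply (f : Fˣ) (v : Place K F) : divisorOf f v = v.ord (f : F) :=
  (HasPrincipalDivisors.exists_divisor (K := K) (f : F) f.ne_zero).choose_spec.1 v

theorem degree_divisorOf (f : Fˣ) : Divisor.degree (divisorOf (K := K) f) = 0 :=
  (HasPrincipalDivisors.exists_divisor (K := K) (f : F) f.ne_zero).choose_spec.2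

variable {n : ℕ}

/-- `div f / n`. -/
def dividedDivisor (f : selmer K F n) : Divisor K F :=
  Finsupp.mapRange (· / (n : ℤ)) (Int.zero_ediv _) (divisorOf f.1)

theorem nsmul_dividedDivisor (f : selmer K F n) :
    (n : ℤ) • dividedDivisor f = divisorOf f.1 := by
  ext v
  rw [Finsupp.smul_apply, dividedDivisor, Finsupp.mapRange_apply, smul_eq_mul,
    divisorOf_apply, Int.mul_ediv_cancel' (f.2 v)]

theorem degree_dividedDivisor (hn : n ≠ 0) (f : selmer K F n) :
    Divisor.degree (dividedDivisor f) = 0 := by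
  have h := congrArg Divisor.degree (nsmul_dividedDivisor f)
  rw [map_zsmul, degree_divisorOf, smul_eq_zero] at h
  exact h.resolve_left (by exact_mod_cast hn)

theorem dividedDivisor_mul (f g : selmer K F n) :
    dividedDivisor (f * g) = dividedDivisor f + dividedDivisor g := by
  ext v
  simp only [dividedDivisor, Finsupp.add_apply, Finsupp.mapRange_apply, divisorOf_apply,
    Subgroup.coe_mul, Units.val_mul, v.ord_mul f.1.ne_zero g.1.ne_zero]
  exact Int.add_ediv_of_dvd_left (f.2 v)

/-- `f ↦ [div f / n]`. -/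
def selmerToTorsion (hn : n ≠ 0) : Additive (selmer K F n) →+ Pic0.torsion K F n :=
  AddMonoidHom.mk' (fun f => ⟨Pic0.mk ⟨dividedDivisor f.toMul, degree_dividedDivisor hn _⟩, by
    rw [Pic0.mem_torsion]
    show (((n : ℤ) • (⟨dividedDivisor f.toMul, degree_dividedDivisor hn _⟩ :
      Divisor.degZero (K := K) (F := F)) : Divisor.degZero (K := K) (F := F)) :
        Pic0 K F) = 0
    rw [QuotientAddGroup.eq_zero_iff, AddSubgroup.mem_addSubgroupOf, AddSubgroupClass.coe_zsmul,
      nsmul_dividedDivisor]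
    exact ⟨_, f.toMul.1.ne_zero, fun v => divisorOf_apply _ v⟩⟩) fun f g => by
    apply Subtype.ext
    show Pic0.mk _ = Pic0.mk _ + Pic0.mk _
    rw [← Pic0.mk_add]
    exact congrArg Pic0.mk (Subtype.ext (dividedDivisor_mul f.toMul g.toMul))

theorem selmerToTorsion_surjective (hn : n ≠ 0) :
    Function.Surjective (selmerToTorsion (K := K) (F := F) hn) := by
  rintro ⟨x, hx⟩
  obtain ⟨⟨D, hD0⟩, rfl⟩ := Pic0.mk_surjective x
  have hx' : ((n : ℤ) • (⟨D, hD0⟩ : Divisor.degZero (K := K) (F := F))) ∈
      (Divisor.principal (K := K) (F := F)).addSubgroupOf (Divisor.degZero (K := K) (F := F)) :=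
    (QuotientAddGroup.eq_zero_iff _).mp (Pic0.mem_torsion.mp hx)
  obtain ⟨f, hf, hfD⟩ := hx'
  have hfD' : ∀ v : Place K F, (n : ℤ) * D v = v.ord f := fun v => by
    have := hfD v
    simpa using this
  refine ⟨Additive.ofMul ⟨Units.mk0 f hf, fun v => ⟨D v, (hfD' v).symm⟩⟩, ?_⟩
  apply Subtype.ext
  refine congrArg Pic0.mk (Subtype.ext ?_)
  ext v
  simp [dividedDivisor, divisorOf_apply, ← hfD' v, hn]

theorem selmerToTorsion_eq_zero_iff [IsAlgClosed K] (hc : ConstantsAreConstant K F) (hn : n ≠ 0)
    (f : selmer K F n) :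
    selmerToTorsion hn (Additive.ofMul f) = 0 ↔ f ∈ selmerPowers K F n := by
  have hiff : selmerToTorsion hn (Additive.ofMul f) = 0 ↔
      Divisor.IsPrincipal (dividedDivisor f) := by
    rw [← Subtype.coe_inj]
    exact QuotientAddGroup.eq_zero_iff _
  rw [hiff, mem_selmerPowers]
  constructor
  · rintro ⟨h, hh, hhD⟩
    have hord : ∀ v : Place K F, v.ord ((f.1 : F) / h ^ n) = 0 := fun v => by
      rw [div_eq_mul_inv, v.ord_mul f.1.ne_zero (inv_ne_zero (pow_ne_zero _ hh)), v.ord_inv,
        ord_natPow, ← hhD v, ← divisorOf_apply, ← nsmul_dividedDivisor]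
      simp
    obtain ⟨c, hc'⟩ := hc _ (div_ne_zero f.1.ne_zero (pow_ne_zero _ hh)) hord
    obtain ⟨d, hd⟩ := IsAlgClosed.exists_pow_nat_eq c (Nat.pos_of_ne_zero hn)
    have hf : (algebraMap K F d * h) ^ n = (f.1 : F) := by
      rw [mul_pow, ← map_pow, hd, hc', div_mul_cancel₀ _ (pow_ne_zero _ hh)]
    have hne : algebraMap K F d * h ≠ 0 := fun h0 => f.1.ne_zero (by rw [← hf, h0, zero_pow hn])
    exact ⟨Units.mk0 _ hne, Units.ext (by simp [hf])⟩
  · rintro ⟨h, hh⟩
    refine ⟨h, h.ne_zero, fun v => ?_⟩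
    simp [dividedDivisor, divisorOf_apply, ← hh, ord_natPow, hn]

/-- Kummer isomorphism between `Sel n` and the `n`-torsion of `Pic⁰`. -/
def selEquivTorsion [IsAlgClosed K] (hc : ConstantsAreConstant K F) (hn : n ≠ 0) :
    Sel K F n ≃* Multiplicative (Pic0.torsion K F n) :=
  (QuotientGroup.quotientMulEquivOfEq (Subgroup.ext fun f =>
    ((selmerToTorsion_eq_zero_iff hc hn f).symm.trans
      (MonoidHom.mem_ker (f := (selmerToTorsion hn).toMultiplicativeRight)).symm))).trans
    (QuotientGroup.quotientKerEquivOfSurjective (selmerToTorsion hn).toMultiplicativeRight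
      (fun y => by
        obtain ⟨x, hx⟩ := selmerToTorsion_surjective hn y.toAdd
        exact ⟨x.toMul, congrArg Multiplicative.ofAdd hx⟩))

theorem natCard_torsion_eq_natCard_sel [IsAlgClosed K] (hc : ConstantsAreConstant K F)
    (hn : n ≠ 0) : Nat.card (Pic0.torsion K F n) = Nat.card (Sel K F n) :=
  (Nat.card_congr ((selEquivTorsion hc hn).toEquiv.trans Multiplicative.toAdd)).symm

end

end Fermat.Agent.Torsion
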