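import Fermat.Agent.Torsion.Cochain
import Fermat.Agent.Torsion.Kummer
import Mathlib.RingTheory.RootsOfUnity.PrimitiveRoots
import Mathlib.Data.ZMod.Basic
import Mathlib.Tactic.LinearCombination
import Mathlib.Algebra.Field.ZMod

/-!
# From branch data to the order of `Sel n`

`M` is any field of branch functions (meromorphic functions on a slit plane, or germs), `Cont i x y`
says that `x` continues to `y` across the `i`-th slit, and `phi s` is the `s`-th branch.  Once the
facts in `IsKummerMonodromy` hold, `f ↦ (multipliers of f^(1/n))` is a bijection from `Sel n` to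
unramified monodromy classes.
-/

set_option autoImplicit false

noncomputable section

namespace Fermat.Agent.Torsion

open AlgebraicCurve

variable {K F M : Type*} [Field K] [Field F] [Algebra K F] [Field M] [Algebra K M]
variable {r : ℕ} {S : Type*}

/-- The character `a ↦ ζ^a` with values in `M`. -/
def rootChar {n : ℕ} (M : Type*) [Field M] [Algebra K M] (zeta : K) (a : ZMod n) : M :=
  algebraMap K M zeta ^ a.val

/-- `h` is a family of `n`-th roots of the branches of `f` whose continuations carry the
multipliers `a`. -/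
def IsRootFamily {n : ℕ} (zeta : K) (sigma : Fin r → Equiv.Perm S) (Cont : Fin r → M → M → Prop)
    (phi : S → (F →ₐ[K] M)) (f : selmer K F n) (h : S → M) (a : Fin r → S → ZMod n) : Prop :=
  (∀ s, h s ^ n = phi s (f.1 : F)) ∧
    ∀ i s, Cont i (h s) (rootChar M zeta (a i s) * h (sigma i s))

/-- The analytic input for the Kummer count. -/
structure IsKummerMonodromy [Fintype S] (n : ℕ) (zeta : K) (sigma : Fin r → Equiv.Perm S)
    (Cont : Fin r → M → M → Prop) (phi : S → (F →ₐ[K] M)) : Prop where
  /-- A function has at most one continuation. -/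
  cont_unique : ∀ i x y y', Cont i x y → Cont i x y' → y = y'
  /-- Continuation is multiplicative. -/
  cont_mul : ∀ i x x' y y', Cont i x x' → Cont i y y' → Cont i (x * y) (x' * y')
  /-- Constants continue to themselves. -/
  cont_const : ∀ i (c : K), Cont i (algebraMap K M c) (algebraMap K M c)
  /-- Continuation permutes the branches. -/
  map_branch : ∀ i s (f : F), Cont i (phi s f) (phi (sigma i s) f)
  /-- A function with divisible orders has `n`-th roots of its branches, all continuable. -/
  exists_root : ∀ f : selmer K F n, ∃ h : S → M,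
    (∀ s, h s ^ n = phi s (f.1 : F)) ∧ ∀ i s, ∃ y, Cont i (h s) y
  /-- These roots are single valued around every place over a branch point and over infinity. -/
  multipliers_unramified : ∀ (f : selmer K F n) h a, IsRootFamily zeta sigma Cont phi f h a →
    a ∈ unramified sigma (ZMod n)
  /-- An invariant family of roots comes from the function field. -/
  rigid : ∀ (f : selmer K F n) (h : S → M), (∀ s, h s ^ n = phi s (f.1 : F)) →
    (∀ i s, Cont i (h s) (h (sigma i s))) → ∃ g : F, ∀ s, phi s g = h s
  /-- Every unramified cochain occurs as the multipliers of a root family. -/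
  existence : ∀ a ∈ unramified sigma (ZMod n),
    ∃ f h, IsRootFamily zeta sigma Cont phi f h a

variable {n : ℕ} [NeZero n] {zeta : K} (hzeta : IsPrimitiveRoot zeta n)

include hzeta

omit [NeZero n] in
theorem zetaM_primitive : IsPrimitiveRoot (algebraMap K M zeta) n :=
  hzeta.map_of_injective (algebraMap K M).injective

omit [NeZero n] in
theorem rootChar_natCast (k : ℕ) :
    rootChar M zeta (k : ZMod n) = algebraMap K M zeta ^ k := by
  rw [rootChar, ZMod.val_natCast]
  exact (pow_eq_pow_mod k (zetaM_primitive hzeta).pow_eq_one).symm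

omit hzeta [NeZero n] in
theorem rootChar_zero : rootChar M zeta (0 : ZMod n) = 1 := by
  rw [rootChar, ZMod.val_zero, pow_zero]

theorem rootChar_add (a b : ZMod n) :
    rootChar M zeta (a + b) = rootChar M zeta a * rootChar M zeta b := by
  conv_lhs => rw [← ZMod.natCast_zmod_val a, ← ZMod.natCast_zmod_val b, ← Nat.cast_add,
    rootChar_natCast hzeta, pow_add]
  rfl

theorem rootChar_injective : Function.Injective (rootChar M zeta (n := n)) := fun a b h =>
  ZMod.val_injective n ((zetaM_primitive hzeta).pow_inj (ZMod.val_lt a) (ZMod.val_lt b) h)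

omit [NeZero n] in
theorem rootChar_pow_eq_one (a : ZMod n) : rootChar M zeta a ^ n = 1 := by
  rw [rootChar, ← pow_mul, mul_comm _ n, pow_mul, (zetaM_primitive hzeta).pow_eq_one, one_pow]

theorem exists_rootChar_eq {x : M} (hx : x ^ n = 1) : ∃ a : ZMod n, rootChar M zeta a = x := by
  obtain ⟨k, -, hk⟩ := (zetaM_primitive hzeta).eq_pow_of_pow_eq_one hx
  exact ⟨k, by rw [rootChar_natCast hzeta, hk]⟩

theorem exists_rootChar_mul {x y : M} (hy : y ≠ 0) (h : x ^ n = y ^ n) :
    ∃ a : ZMod n, x = rootChar M zeta a * y := by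
  obtain ⟨a, ha⟩ := exists_rootChar_eq hzeta (x := x / y)
    (by rw [div_pow, h, div_self (pow_ne_zero _ hy)])
  exact ⟨a, by rw [ha, div_mul_cancel₀ x hy]⟩

omit hzeta

variable {sigma : Fin r → Equiv.Perm S} {Cont : Fin r → M → M → Prop} {phi : S → (F →ₐ[K] M)}

theorem root_ne_zero {f : selmer K F n} {s : S} {h : M} (hh : h ^ n = phi s (f.1 : F)) :
    h ≠ 0 := by
  rintro rfl
  rw [zero_pow (NeZero.ne n)] at hh
  exact f.1.ne_zero ((map_eq_zero _).mp hh.symm)

variable [Fintype S]

omit [Fintype S] in
include hzeta in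
/-- Rigidity alone forces the monodromy to be transitive. -/
theorem isTransitiveMonodromy_of_rigid
    (cont_const : ∀ i (c : K), Cont i (algebraMap K M c) (algebraMap K M c))
    (rigid : ∀ (f : selmer K F n) (h : S → M), (∀ s, h s ^ n = phi s (f.1 : F)) →
      (∀ i s, Cont i (h s) (h (sigma i s))) → ∃ g : F, ∀ s, phi s g = h s)
    (hn : 1 < n) : IsTransitiveMonodromy sigma := by
  classical
  intro s t
  by_contra hno
  let G := Subgroup.closure (Set.range sigma)
  let c : S → ZMod n := fun u => if ∃ g ∈ G, g s = u then 1 else 0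
  have hinv : ∀ i u, c (sigma i u) = c u := by
    intro i u
    have hi : sigma i ∈ G := Subgroup.subset_closure ⟨i, rfl⟩
    refine if_congr ⟨?_, ?_⟩ rfl rfl
    · rintro ⟨g, hg, hgu⟩
      exact ⟨(sigma i)⁻¹ * g, G.mul_mem (G.inv_mem hi) hg, by
        rw [Equiv.Perm.mul_apply, hgu, Equiv.Perm.inv_def, Equiv.symm_apply_apply]⟩
    · rintro ⟨g, hg, hgu⟩
      exact ⟨sigma i * g, G.mul_mem hi hg, by rw [Equiv.Perm.mul_apply, hgu]⟩
  obtain ⟨g, hg⟩ := rigid 1 (fun u => rootChar M zeta (c u))
    (fun u => by rw [rootChar_pow_eq_one hzeta]; simp)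
    (fun i u => by rw [hinv i u]; rw [rootChar, ← map_pow]; exact cont_const i _)
  have hgn : g ^ n = 1 := (phi s).toRingHom.injective (by
    show phi s (g ^ n) = phi s 1
    rw [map_pow, hg, rootChar_pow_eq_one hzeta, map_one])
  obtain ⟨k, -, hk⟩ :=
    (hzeta.map_of_injective (algebraMap K F).injective).eq_pow_of_pow_eq_one hgn
  have hconst : ∀ u, phi u g = algebraMap K M zeta ^ k := fun u => by
    rw [← hk, map_pow, AlgHom.commutes]
  have hst : c s = c t := rootChar_injective hzeta (by
    rw [← hg s, ← hg t, hconst, hconst])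
  simp only [c, if_pos (show ∃ g ∈ G, g s = s from ⟨1, G.one_mem, rfl⟩), if_neg (show ¬ ∃ g ∈ G, g s = t from hno)] at hst
  have : Fact (1 < n) := ⟨hn⟩
  exact one_ne_zero hst

namespace IsKummerMonodromy

variable (D : IsKummerMonodromy n zeta sigma Cont phi)

include D

omit [NeZero n] in
theorem cont_pow (i : Fin r) {x y : M} (h : Cont i x y) : ∀ k : ℕ, Cont i (x ^ k) (y ^ k)
  | 0 => by simpa using D.cont_const i 1
  | k + 1 => by
    rw [pow_succ, pow_succ]
    exact D.cont_mul i _ _ _ _ (cont_pow i h k) h

omit [NeZero n] in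
theorem cont_rootChar (i : Fin r) (a : ZMod n) :
    Cont i (rootChar M zeta a) (rootChar M zeta a) := by
  rw [rootChar, ← map_pow]
  exact D.cont_const i _

include hzeta

theorem exists_multipliers (f : selmer K F n) :
    ∃ h a, IsRootFamily zeta sigma Cont phi f h a := by
  obtain ⟨h, hh, hy⟩ := D.exists_root f
  choose y hy using hy
  have : ∀ i s, ∃ a : ZMod n, y i s = rootChar M zeta a * h (sigma i s) := fun i s =>
    exists_rootChar_mul hzeta (root_ne_zero (hh _)) (by
      rw [hh]
      have h₁ := cont_pow D i (hy i s) n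
      rw [hh] at h₁
      exact D.cont_unique i _ _ _ h₁ (D.map_branch i s _))
  choose a ha using this
  exact ⟨h, a, hh, fun i s => ha i s ▸ hy i s⟩

theorem multipliers_sub_mem {f : selmer K F n} {g h : S → M} {a b : Fin r → S → ZMod n}
    (ha : IsRootFamily zeta sigma Cont phi f g a) (hb : IsRootFamily zeta sigma Cont phi f h b) :
    a - b ∈ (coboundary sigma (ZMod n)).range := by
  obtain ⟨hg, hga⟩ := ha
  obtain ⟨hh, hhb⟩ := hb
  choose c hc using fun s => exists_rootChar_mul hzeta (root_ne_zero (hg s))
    ((hh s).trans (hg s).symm)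
  refine ⟨c, funext fun i => funext fun s => ?_⟩
  have h₁ := D.cont_mul i _ _ _ _ (D.cont_rootChar i (c s)) (hga i s)
  rw [← hc s] at h₁
  have h₂ := D.cont_unique i _ _ _ (hhb i s) h₁
  rw [hc (sigma i s), ← mul_assoc, ← mul_assoc, ← rootChar_add hzeta, ← rootChar_add hzeta] at h₂
  have h₃ := rootChar_injective hzeta (mul_right_cancel₀ (root_ne_zero (hg _)) h₂)
  rw [coboundary_apply, Pi.sub_apply, Pi.sub_apply]
  linear_combination h₃

theorem multipliers_add {f f' : selmer K F n} {g h : S → M} {a a' : Fin r → S → ZMod n}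
    (ha : IsRootFamily zeta sigma Cont phi f g a)
    (ha' : IsRootFamily zeta sigma Cont phi f' h a') :
    IsRootFamily zeta sigma Cont phi (f * f') (g * h) (a + a') := by
  refine ⟨fun s => ?_, fun i s => ?_⟩
  · rw [Pi.mul_apply, mul_pow, ha.1, ha'.1, ← map_mul]
    rfl
  · have h₁ := D.cont_mul i _ _ _ _ (ha.2 i s) (ha'.2 i s)
    rw [Pi.mul_apply, Pi.mul_apply, Pi.add_apply, Pi.add_apply, rootChar_add hzeta,
      mul_mul_mul_comm]
    exact h₁

/-- The monodromy class of `f^(1/n)`. -/
def classOf (f : selmer K F n) : MonodromyH sigma (ZMod n) :=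
  QuotientAddGroup.mk
    ⟨(exists_multipliers hzeta D f).choose_spec.choose,
      D.multipliers_unramified _ _ _ (exists_multipliers hzeta D f).choose_spec.choose_spec⟩

theorem classOf_eq {f : selmer K F n} {h : S → M} {a : Fin r → S → ZMod n}
    (ha : IsRootFamily zeta sigma Cont phi f h a) :
    classOf hzeta D f = QuotientAddGroup.mk ⟨a, D.multipliers_unramified _ _ _ ha⟩ := by
  rw [classOf, QuotientAddGroup.eq, AddSubgroup.mem_addSubgroupOf]
  show -(exists_multipliers hzeta D f).choose_spec.choose + a ∈ _
  rw [neg_add_eq_sub]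
  exact multipliers_sub_mem hzeta D ha (exists_multipliers hzeta D f).choose_spec.choose_spec

/-- `f ↦` class of `f^(1/n)`, as a homomorphism. -/
def classHom : selmer K F n →* Multiplicative (MonodromyH sigma (ZMod n)) :=
  MonoidHom.mk' (fun f => Multiplicative.ofAdd (classOf hzeta D f)) fun f f' => by
    rw [← ofAdd_add]
    refine congrArg _ ?_
    obtain ⟨g, a, ha⟩ := exists_multipliers hzeta D f
    obtain ⟨h, a', ha'⟩ := exists_multipliers hzeta D f'
    rw [classOf_eq hzeta D ha, classOf_eq hzeta D ha',
      classOf_eq hzeta D (multipliers_add hzeta D ha ha'), ← QuotientAddGroup.mk_add]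
    rfl

theorem classHom_surjective : Function.Surjective (classHom hzeta D) := by
  intro x
  obtain ⟨⟨a, ha⟩, hx⟩ := QuotientAddGroup.mk_surjective x.toAdd
  obtain ⟨f, h, hf⟩ := D.existence a ha
  exact ⟨f, congrArg Multiplicative.ofAdd ((classOf_eq hzeta D hf).trans hx)⟩

theorem ker_classHom [Nonempty S] : (classHom hzeta D).ker = selmerPowers K F n := by
  ext f
  rw [MonoidHom.mem_ker, mem_selmerPowers]
  constructor
  · intro hf
    obtain ⟨g, a, ha⟩ := exists_multipliers hzeta D f
    have hf' : classOf hzeta D f = 0 := hf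
    rw [classOf_eq hzeta D ha, QuotientAddGroup.eq_zero_iff, AddSubgroup.mem_addSubgroupOf] at hf'
    obtain ⟨c, hc⟩ := hf'
    obtain ⟨g₀, hg₀⟩ := D.rigid f (fun s => rootChar M zeta (c s) * g s)
      (fun s => by rw [mul_pow, ha.1, rootChar_pow_eq_one hzeta, one_mul])
      (fun i s => by
        have hci : a i s = c (sigma i s) - c s := (congrFun (congrFun hc i) s).symm
        have h₁ := D.cont_mul i _ _ _ _ (D.cont_rootChar i (c s)) (ha.2 i s)
        rw [hci, ← mul_assoc, ← rootChar_add hzeta, add_sub_cancel] at h₁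
        exact h₁)
    obtain ⟨s⟩ := ‹Nonempty S›
    have heq : g₀ ^ n = (f.1 : F) := by
      apply (phi s).injective
      show phi s (g₀ ^ n) = phi s (f.1 : F)
      rw [map_pow, hg₀, mul_pow, ha.1, rootChar_pow_eq_one hzeta, one_mul]
    have hne : g₀ ≠ 0 := fun h0 => f.1.ne_zero (by rw [← heq, h0, zero_pow (NeZero.ne n)])
    exact ⟨Units.mk0 g₀ hne, Units.ext (by simp [heq])⟩
  · rintro ⟨g, hg⟩
    have ha : IsRootFamily zeta sigma Cont phi f (fun s => phi s (g : F))
        (0 : Fin r → S → ZMod n) :=
      ⟨fun s => by rw [← map_pow, ← hg, Units.val_pow_eq_pow_val],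
        fun i s => by
          rw [Pi.zero_apply, Pi.zero_apply, rootChar_zero, one_mul]
          exact D.map_branch i s _⟩
    exact congrArg Multiplicative.ofAdd ((classOf_eq hzeta D ha).trans rfl)

/-- `Sel n` has as many elements as there are unramified monodromy classes. -/
theorem natCard_sel [Nonempty S] :
    Nat.card (Sel K F n) = Nat.card (MonodromyH sigma (ZMod n)) :=
  Nat.card_congr
    (((QuotientGroup.quotientMulEquivOfEq (ker_classHom hzeta D).symm).trans
      (QuotientGroup.quotientKerEquivOfSurjective _ (classHom_surjective hzeta D))).toEquiv.trans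
      Multiplicative.toAdd)

/-- Rigidity forces the monodromy to be transitive. -/
theorem isTransitive (hn : 1 < n) : IsTransitiveMonodromy sigma :=
  isTransitiveMonodromy_of_rigid hzeta D.cont_const D.rigid hn

/-- The torsion count from branch data and the Riemann–Hurwitz formula. -/
theorem natCard_torsion [Nonempty S] [HasPrincipalDivisors K F] [IsAlgClosed K]
    (hn : 1 < n) (hc : ConstantsAreConstant K F) (g : ℕ)
    (hg : 2 * (g : ℤ) - 2 = -2 * (Fintype.card S : ℤ) +
      ∑ i, ((Fintype.card S : ℤ) - numCycles (sigma i)) +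
        ((Fintype.card S : ℤ) - numCycles (totalPerm sigma))) :
    Nat.card (Pic0.torsion K F n) = n ^ (2 * g) := by
  rw [natCard_torsion_eq_natCard_sel hc (NeZero.ne n), natCard_sel hzeta D,
    card_monodromyH sigma (isTransitive hzeta D hn) g hg, Nat.card_zmod]

end IsKummerMonodromy

end Fermat.Agent.Torsion
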