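import Fermat.Agent.Curve.Duality
import Fermat.Agent.Torsion.Constants
import Fermat.Agent.Torsion.KummerMonodromy

/-!
# Riemann–Hurwitz in terms of the number of places over each branch point

For `x` transcendental over the algebraically closed field `K` of characteristic zero and a finite
set `B` of values outside which `x` is unramified,
`2g - 2 = -2d + Σ_{c ∈ B} (d - #fibre c) + (d - #poles)`.
-/

set_option autoImplicit false

noncomputable section

namespace Fermat.Agent.Torsion

open AlgebraicCurve IntermediateField KaehlerDifferential Fermat.Agent.Curve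

variable {K F : Type*} [Field K] [Field F] [Algebra K F]

variable (K) in
/-- The places where `x` has a pole. -/
def polesOf (x : F) : Set (Place K F) := {v | v.ord x < 0}

/-- The places where `x` takes the value `c`. -/
def fibreOf (x : F) (c : K) : Set (Place K F) := {v | 0 < v.ord (x - algebraMap K F c)}

/-- Every place over a value outside `B` is unramified for `x`. -/
def IsUnramifiedOutside (x : F) (B : Finset K) : Prop :=
  ∀ c ∉ B, ∀ v ∈ fibreOf x c, v.ord (x - algebraMap K F c) = 1

variable [IsAlgClosed K] [IsFunctionField1 K F]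

theorem degree_eq_sum (D : Divisor K F) {T : Finset (Place K F)} (hT : D.support ⊆ T) :
    Divisor.degree D = ∑ v ∈ T, D v := by
  simp only [Divisor.degree, Finsupp.liftAddHom_apply]
  rw [Finsupp.sum_of_support_subset _ hT _ (fun v _ => by simp)]
  refine Finset.sum_congr rfl fun v _ => ?_
  simp [Fermat.Agent.Curve.deg_eq_one v]

variable {x : F} (hx : Transcendental K x)

include hx

omit [IsAlgClosed K] [IsFunctionField1 K F] in
theorem sub_algebraMap_ne_zero (c : K) : x - algebraMap K F c ≠ 0 :=
  fun h => hx ((sub_eq_zero.mp h) ▸ isAlgebraic_algebraMap c)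

omit [IsFunctionField1 K F] in
theorem transcendental_sub_algebraMap (c : K) : Transcendental K (x - algebraMap K F c) :=
  fun h => hx (by simpa using h.add (isAlgebraic_algebraMap c))

omit [IsAlgClosed K] [IsFunctionField1 K F] in
theorem ord_sub_algebraMap_of_neg {v : Place K F} (hv : v.ord x < 0) (c : K) :
    v.ord (x - algebraMap K F c) = v.ord x := by
  rw [sub_eq_add_neg, ← map_neg]
  exact ord_add_eq_of_lt v (fun h => hx (h ▸ isAlgebraic_zero)) (by rwa [ord_algebraMap])

omit [IsAlgClosed K] [IsFunctionField1 K F] in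
theorem not_mem_fibreOf_of_mem_polesOf {v : Place K F} (hv : v ∈ polesOf K x) (c : K) :
    v ∉ fibreOf x c := fun h => by
  have h₁ : 0 < v.ord (x - algebraMap K F c) := h
  rw [ord_sub_algebraMap_of_neg hx hv c] at h₁
  exact lt_asymm h₁ hv

theorem exists_mem_fibreOf {v : Place K F} (hv : v ∉ polesOf K x) : ∃ c, v ∈ fibreOf x c := by
  obtain ⟨c, hc⟩ := exists_sub_algebraMap_ord_pos v
    ((mem_iff_ord_nonneg v).mpr (not_lt.mp (show ¬ v.ord x < 0 from hv)))
  exact ⟨c, hc.resolve_left (sub_algebraMap_ne_zero hx c)⟩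

omit [IsAlgClosed K] [IsFunctionField1 K F] in
theorem fibreOf_disjoint {v : Place K F} {c c' : K} (h : v ∈ fibreOf x c)
    (h' : v ∈ fibreOf x c') : c = c' := by
  by_contra hne
  have h₁ : 0 < v.ord (x - algebraMap K F c) := h
  have h₂ : 0 < v.ord (x - algebraMap K F c') := h'
  have hsum : x - algebraMap K F c + -(x - algebraMap K F c') = algebraMap K F (c' - c) := by
    rw [map_sub]; ring
  have hle := min_ord_le_ord_add v (f := x - algebraMap K F c) (g := -(x - algebraMap K F c'))
    (by rw [hsum, ne_eq, map_eq_zero, sub_eq_zero]; exact Ne.symm hne)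
  rw [hsum, ord_algebraMap, ord_neg] at hle
  exact absurd hle (not_le.mpr (lt_min h₁ h₂))

theorem finite_fibreOf (c : K) : (fibreOf x c).Finite :=
  (finite_ord_ne_zero (K := K) (x - algebraMap K F c)).subset fun _ hv => ne_of_gt hv

theorem finite_polesOf : (polesOf K x).Finite :=
  (finite_ord_ne_zero (K := K) x).subset fun _ hv => ne_of_lt hv

theorem sum_ord_polesOf :
    ∑ v ∈ (finite_polesOf hx).toFinset, v.ord x = -(Module.finrank K⟮x⟯ F : ℤ) := by
  classical
  have h := degree_poleDivisor (K := K) hx
  rw [degree_eq_sum _ (T := (finite_polesOf hx).toFinset) (fun v hv => by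
    rw [Finsupp.mem_support_iff, poleDivisor_apply] at hv
    rw [Set.Finite.mem_toFinset]
    show v.ord x < 0
    by_contra hlt
    exact hv (max_eq_right (by omega)))] at h
  rw [← h, ← Finset.sum_neg_distrib]
  refine Finset.sum_congr rfl fun v hv => ?_
  rw [Set.Finite.mem_toFinset] at hv
  rw [poleDivisor_apply, max_eq_left (by have : v.ord x < 0 := hv; omega), neg_neg]

theorem sum_ord_fibreOf (c : K) :
    ∑ v ∈ (finite_fibreOf hx c).toFinset, v.ord (x - algebraMap K F c) =
      (Module.finrank K⟮x⟯ F : ℤ) := by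
  classical
  have hy : Transcendental K ((x - algebraMap K F c)⁻¹) := fun h =>
    transcendental_sub_algebraMap hx c (IsAlgebraic.inv_iff.mp h)
  have heq : K⟮(x - algebraMap K F c)⁻¹⟯ = K⟮x⟯ := by
    apply le_antisymm <;> rw [adjoin_simple_le_iff]
    · exact inv_mem (sub_mem (mem_adjoin_simple_self K x) (IntermediateField.algebraMap_mem _ c))
    · have h := add_mem (inv_mem (mem_adjoin_simple_self K ((x - algebraMap K F c)⁻¹)))
        (IntermediateField.algebraMap_mem K⟮(x - algebraMap K F c)⁻¹⟯ c)
      simpa using h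
  have h := degree_poleDivisor (K := K) hy
  rw [degree_eq_sum _ (T := (finite_fibreOf hx c).toFinset) (fun v hv => by
    rw [Finsupp.mem_support_iff, poleDivisor_apply, v.ord_inv] at hv
    rw [Set.Finite.mem_toFinset]
    show 0 < v.ord (x - algebraMap K F c)
    by_contra hlt
    exact hv (max_eq_right (by omega)))] at h
  rw [heq] at h
  rw [← h]
  refine Finset.sum_congr rfl fun v hv => ?_
  rw [Set.Finite.mem_toFinset] at hv
  rw [poleDivisor_apply, v.ord_inv, neg_neg,
    max_eq_left (le_of_lt (show 0 < v.ord (x - algebraMap K F c) from hv))]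

theorem ncard_fibreOf_of_unramified (c : K)
    (h : ∀ v ∈ fibreOf x c, v.ord (x - algebraMap K F c) = 1) :
    ((fibreOf x c).ncard : ℤ) = Module.finrank K⟮x⟯ F := by
  rw [← sum_ord_fibreOf hx c, Set.ncard_eq_toFinset_card _ (finite_fibreOf hx c),
    Finset.sum_congr rfl fun v hv => h v ((Set.Finite.mem_toFinset _).mp hv)]
  simp

variable [CharZero K]

theorem D_ne_zero : D K F x ≠ 0 := by
  have : FiniteDimensional K⟮x⟯ F := finiteDimensional_adjoin hx
  have : CharZero F := (RingHom.charZero_iff (algebraMap K F).injective).mp inferInstance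
  have : CharZero K⟮x⟯ := SubsemiringClass.instCharZero K⟮x⟯
  exact D_ne_zero_of_isSeparable hx

theorem ordDifferential_D_of_mem_fibreOf {v : Place K F} {c : K} (hv : v ∈ fibreOf x c) :
    v.ordDifferential (D K F x) = v.ord (x - algebraMap K F c) - 1 := by
  have hD : D K F x = D K F (x - algebraMap K F c) := by simp
  rw [hD]
  exact ordDifferential_D_of_ne_zero v (Int.cast_ne_zero.mpr (ne_of_gt hv))

theorem exists_isUnramifiedOutside : ∃ B : Finset K, IsUnramifiedOutside x B := by
  classical
  refine ⟨(canonicalDivisorOf (D_ne_zero hx)).support.image (fun v => evalAt v x),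
    fun c hc v hv => ?_⟩
  by_contra hne
  refine hc (Finset.mem_image.mpr ⟨v, ?_, ?_⟩)
  · rw [Finsupp.mem_support_iff, canonicalDivisorOf_apply,
      ordDifferential_D_of_mem_fibreOf hx hv]
    omega
  · have hnp : v ∉ polesOf K x := fun hp => not_mem_fibreOf_of_mem_polesOf hx hp c hv
    have hm := (mem_iff_ord_nonneg v).mpr (not_lt.mp (show ¬ v.ord x < 0 from hnp))
    exact fibreOf_disjoint hx
      ((evalAt_spec v hm).resolve_left (sub_algebraMap_ne_zero hx _)) hv

/-- Riemann–Hurwitz by counting the places over each branch value and over `∞`. -/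
theorem hurwitz_count {B : Finset K} (hB : IsUnramifiedOutside x B) :
    2 * (genusFF K F : ℤ) - 2 = -2 * (Module.finrank K⟮x⟯ F : ℤ) +
      ∑ c ∈ B, ((Module.finrank K⟮x⟯ F : ℤ) - (fibreOf x c).ncard) +
        ((Module.finrank K⟮x⟯ F : ℤ) - (polesOf K x).ncard) := by
  classical
  set d : ℤ := (Module.finrank K⟮x⟯ F : ℤ)
  set W := canonicalDivisorOf (D_ne_zero hx) with hW
  let P := (finite_polesOf hx).toFinset
  let U := B.biUnion fun c => (finite_fibreOf hx c).toFinset
  have hdisj : Disjoint P U := by
    rw [Finset.disjoint_left]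
    intro v hv hv'
    simp only [P, Set.Finite.mem_toFinset] at hv
    simp only [U, Finset.mem_biUnion, Set.Finite.mem_toFinset] at hv'
    obtain ⟨c, -, hc⟩ := hv'
    exact not_mem_fibreOf_of_mem_polesOf hx hv c hc
  have hsupp : W.support ⊆ P ∪ U := by
    intro v hv
    rw [Finsupp.mem_support_iff, hW, canonicalDivisorOf_apply] at hv
    rw [Finset.mem_union]
    by_cases hp : v ∈ polesOf K x
    · exact Or.inl ((Set.Finite.mem_toFinset _).mpr hp)
    · obtain ⟨c, hc⟩ := exists_mem_fibreOf hx hp
      by_cases hcB : c ∈ B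
      · exact Or.inr (Finset.mem_biUnion.mpr ⟨c, hcB, (Set.Finite.mem_toFinset _).mpr hc⟩)
      · refine absurd ?_ hv
        rw [ordDifferential_D_of_mem_fibreOf hx hc, hB c hcB v hc]
        norm_num
  have hPsum : ∑ v ∈ P, W v = -d - (polesOf K x).ncard := by
    rw [Set.ncard_eq_toFinset_card _ (finite_polesOf hx), ← sum_ord_polesOf hx,
      Finset.card_eq_sum_ones, Nat.cast_sum, ← Finset.sum_sub_distrib]
    refine Finset.sum_congr rfl fun v hv => ?_
    rw [Set.Finite.mem_toFinset] at hv
    rw [hW, canonicalDivisorOf_apply, Nat.cast_one,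
      ordDifferential_D_of_ne_zero v (Int.cast_ne_zero.mpr (ne_of_lt hv))]
  have hUsum : ∑ v ∈ U, W v = ∑ c ∈ B, (d - (fibreOf x c).ncard) := by
    simp only [U]
    rw [Finset.sum_biUnion]
    · refine Finset.sum_congr rfl fun c _ => ?_
      rw [Set.ncard_eq_toFinset_card _ (finite_fibreOf hx c),
        show d = _ from (sum_ord_fibreOf hx c).symm, Finset.card_eq_sum_ones, Nat.cast_sum,
        ← Finset.sum_sub_distrib]
      refine Finset.sum_congr rfl fun v hv => ?_
      rw [hW, canonicalDivisorOf_apply,
        ordDifferential_D_of_mem_fibreOf hx ((Set.Finite.mem_toFinset _).mp hv), Nat.cast_one]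
    · intro c _ c' _ hne
      rw [Function.onFun, Finset.disjoint_left]
      intro v hv hv'
      simp only [Set.Finite.mem_toFinset] at hv hv'
      exact hne (fibreOf_disjoint hx hv hv')
  rw [← degree_canonicalDivisorOf (D_ne_zero hx), ← hW, degree_eq_sum _ hsupp,
    Finset.sum_union hdisj, hPsum, hUsum]
  ring

/-- The torsion count, given monodromy data whose cycles match the fibres. -/
theorem natCard_torsion_of_branchData {r : ℕ} {b : Fin r → K} (hb : Function.Injective b)
    (hB : IsUnramifiedOutside x (Finset.univ.map ⟨b, hb⟩))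
    {S : Type*} [Fintype S] (hS : Fintype.card S = Module.finrank K⟮x⟯ F)
    {M : Type*} [Field M] [Algebra K M] {sigma : Fin r → Equiv.Perm S}
    {Cont : Fin r → M → M → Prop} {phi : S → (F →ₐ[K] M)}
    (hfib : ∀ i, numCycles (sigma i) = (fibreOf x (b i)).ncard)
    (hinf : numCycles (totalPerm sigma) = (polesOf K x).ncard)
    {n : ℕ} (hn : 1 < n) {zeta : K} (hzeta : IsPrimitiveRoot zeta n)
    (D : IsKummerMonodromy n zeta sigma Cont phi) :
    Nat.card (Pic0.torsion K F n) = n ^ (2 * genusFF K F) := by
  have : NeZero n := ⟨by omega⟩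
  have : FiniteDimensional K⟮x⟯ F := finiteDimensional_adjoin hx
  have : Nonempty S := Fintype.card_pos_iff.mp (hS ▸ Module.finrank_pos)
  refine IsKummerMonodromy.natCard_torsion hzeta D hn constantsAreConstant (genusFF K F) ?_
  have h := hurwitz_count hx hB
  simp only [Finset.sum_map, Function.Embedding.coeFn_mk] at h
  rw [hS, hinf]
  simp only [hfib]
  exact h

end Fermat.Agent.Torsion
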