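import Mathlib.GroupTheory.Index
import Mathlib.Algebra.BigOperators.Pi
import Mathlib.Algebra.BigOperators.Finsupp.Basic
import Mathlib.Data.Fintype.BigOperators
import Mathlib.Logic.Relation
import Mathlib.Tactic.Abel
import Mathlib.SetTheory.Cardinal.Finite

/-!
# Boundary map of a finite connected graph

For a finite graph with edge type `E`, vertex type `V` and end maps `hd`, `tl : E → V`, the boundary
`(E → A) →+ (V → A)` has image the sum-zero functions as soon as the graph is connected.
-/

set_option autoImplicit false

noncomputable section

namespace Fermat.Agent.Torsion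

variable {E V : Type*} (A : Type*) [AddCommGroup A] (hd tl : E → V)

section Boundary

variable [Fintype E]

/-- The boundary of an edge chain. -/
def graphBoundary : (E → A) →+ (V → A) where
  toFun a := by
    classical
    exact fun v => ∑ e, ((if hd e = v then a e else 0) - (if tl e = v then a e else 0))
  map_zero' := by funext v; simp
  map_add' a b := by
    classical
    funext v
    simp only [Pi.add_apply, ← Finset.sum_add_distrib]
    refine Finset.sum_congr rfl fun e _ => ?_
    split_ifs <;> abel

variable {A}

theorem graphBoundary_apply [DecidableEq V] (a : E → A) (v : V) :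
    graphBoundary A hd tl a v =
      ∑ e, ((if hd e = v then a e else 0) - (if tl e = v then a e else 0)) := by
  simp only [graphBoundary, AddMonoidHom.coe_mk, ZeroHom.coe_mk]
  refine Finset.sum_congr rfl fun e _ => ?_
  congr

theorem graphBoundary_single [DecidableEq E] [DecidableEq V] (e : E) (x : A) :
    graphBoundary A hd tl (Pi.single e x) = Pi.single (hd e) x - Pi.single (tl e) x := by
  funext v
  rw [graphBoundary_apply]
  rw [Finset.sum_eq_single e (fun e' _ he => by simp [he]) (fun h => absurd (Finset.mem_univ e) h)]
  simp [Pi.single_apply, eq_comm]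

end Boundary

variable [Fintype V]

/-- Sum of the values of a function on a finite type. -/
def sumHom : (V → A) →+ A where
  toFun f := ∑ v, f v
  map_zero' := by simp
  map_add' f g := by simp [Finset.sum_add_distrib]

variable {A}

@[simp]
theorem sumHom_apply (f : V → A) : sumHom A f = ∑ v, f v := rfl

theorem card_ker_sumHom_mul [Finite A] [Nonempty V] :
    Nat.card (sumHom A (V := V)).ker * Nat.card A = Nat.card A ^ Fintype.card V := by
  classical
  have hsurj : Function.Surjective (sumHom A (V := V)) := fun x =>
    ⟨Pi.single (Classical.arbitrary V) x, by simp⟩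
  have h := (sumHom A (V := V)).ker.card_mul_index
  rw [AddSubgroup.index_ker, AddMonoidHom.range_eq_top.mpr hsurj, Nat.card_congr AddSubgroup.topEquiv.toEquiv] at h
  rw [h, Nat.card_fun, Nat.card_eq_fintype_card (α := V)]

variable [Fintype E] {hd tl}

theorem graphBoundary_range_eq [Nonempty V]
    (hconn : ∀ u v : V, Relation.EqvGen (fun x y => ∃ e, hd e = x ∧ tl e = y) u v) :
    (graphBoundary A hd tl).range = (sumHom A).ker := by
  classical
  refine le_antisymm ?_ fun f hf => ?_
  · rintro _ ⟨a, rfl⟩
    simp only [AddMonoidHom.mem_ker, sumHom_apply, graphBoundary_apply]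
    rw [Finset.sum_comm]
    simp
  · have key : ∀ u v : V, ∀ x : A,
        (Pi.single u x - Pi.single v x : V → A) ∈ (graphBoundary A hd tl).range := by
      intro u v
      induction hconn u v with
      | rel x y h =>
        obtain ⟨e, rfl, rfl⟩ := h
        exact fun x => ⟨Pi.single e x, graphBoundary_single hd tl e x⟩
      | refl x => intro x; simp [(graphBoundary A hd tl).range.zero_mem]
      | symm x y _ ih =>
        intro c
        simpa using neg_mem (ih c)
      | trans x y z _ _ ih₁ ih₂ =>
        intro c
        simpa using add_mem (ih₁ c) (ih₂ c)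
    let v₀ : V := Classical.arbitrary V
    have hzero : ∑ v, f v = 0 := hf
    have hsplit : f = ∑ v, (Pi.single v (f v) - Pi.single v₀ (f v) : V → A) := by
      funext w
      simp only [Finset.sum_apply, Pi.sub_apply, Finset.sum_sub_distrib, Pi.single_apply]
      rcases eq_or_ne w v₀ with rfl | hw
      · simp [hzero]
      · simp [hw]
    rw [hsplit]
    exact sum_mem fun v _ => key v v₀ (f v)

theorem card_ker_graphBoundary [Finite A] [Nonempty V]
    (hconn : ∀ u v : V, Relation.EqvGen (fun x y => ∃ e, hd e = x ∧ tl e = y) u v) :
    Nat.card (graphBoundary A hd tl).ker * Nat.card A ^ Fintype.card V =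
      Nat.card A ^ (Fintype.card E + 1) := by
  have h := (graphBoundary A hd tl).ker.card_mul_index
  rw [AddSubgroup.index_ker, graphBoundary_range_eq hconn, Nat.card_fun,
    Nat.card_eq_fintype_card (α := E)] at h
  calc Nat.card (graphBoundary A hd tl).ker * Nat.card A ^ Fintype.card V
      = Nat.card (graphBoundary A hd tl).ker * Nat.card (sumHom A (V := V)).ker * Nat.card A := by
        rw [mul_assoc, card_ker_sumHom_mul]
    _ = Nat.card A ^ (Fintype.card E + 1) := by rw [h, pow_succ]

end Fermat.Agent.Torsion
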