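import Mathlib.GroupTheory.Perm.Cycle.Basic
import Mathlib.GroupTheory.OrderOfElement
import Mathlib.GroupTheory.QuotientGroup.Basic
import Mathlib.Dynamics.PeriodicPts.Defs
import Mathlib.Tactic.Ring
import Mathlib.Tactic.Linarith
import Fermat.Agent.Torsion.Incidence

/-!
# Unramified monodromy cochains

Combinatorial input for counting torsion: `sigma i` is the monodromy at the `i`-th finite branch
point acting on the finite set of sheets `S`.  A cochain `a i s` records the multiplier picked up
by sheet `s` when crossing the `i`-th slit.  Unramified cochains modulo coboundaries form a group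
of cardinality `|A| ^ (2g)`, with `g` given by the Riemann–Hurwitz formula.
-/

set_option autoImplicit false

noncomputable section

namespace Fermat.Agent.Torsion

variable {r : ℕ} {S : Type*}

/-- Number of cycles of a permutation, fixed points included. -/
def numCycles (f : Equiv.Perm S) : ℕ := Nat.card (Quotient (Equiv.Perm.SameCycle.setoid f))

/-- The class of a sheet in the set of cycles of a permutation. -/
def cycleClass (f : Equiv.Perm S) (s : S) : Quotient (Equiv.Perm.SameCycle.setoid f) :=
  Quotient.mk _ s

theorem cycleClass_apply (f : Equiv.Perm S) (s : S) : cycleClass f (f s) = cycleClass f s :=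
  Quotient.sound (Equiv.Perm.sameCycle_apply_left.mpr (Equiv.Perm.SameCycle.refl f s))

theorem cycleClass_eq_iff (f : Equiv.Perm S) (s t : S) :
    cycleClass f s = cycleClass f t ↔ f.SameCycle s t :=
  Quotient.eq (r := Equiv.Perm.SameCycle.setoid f)

theorem cycleClass_surjective (f : Equiv.Perm S) : Function.Surjective (cycleClass f) := fun q =>
  Quotient.exists_rep q

variable (sigma : Fin r → Equiv.Perm S)

/-- `sigma (k-1) * ... * sigma 0`. -/
def prefixPerm : ℕ → Equiv.Perm S
  | 0 => 1
  | k + 1 => (if h : k < r then sigma ⟨k, h⟩ else 1) * prefixPerm k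

/-- The monodromy around all finite branch points. -/
def totalPerm : Equiv.Perm S := prefixPerm sigma r

@[simp]
theorem prefixPerm_zero : prefixPerm sigma 0 = 1 := rfl

theorem prefixPerm_succ (i : Fin r) :
    prefixPerm sigma ((i : ℕ) + 1) = sigma i * prefixPerm sigma i := by
  rw [prefixPerm, dif_pos i.2]

variable [Fintype S] (A : Type*) [AddCommGroup A]

/-- Sum of a function over each cycle of `f`. -/
def cycleSum (f : Equiv.Perm S) : (S → A) →+ (Quotient (Equiv.Perm.SameCycle.setoid f) → A) where
  toFun v := by
    classical
    exact fun q => ∑ t, if cycleClass f t = q then v t else 0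
  map_zero' := by funext q; simp
  map_add' v w := by
    classical
    funext q
    simp only [Pi.add_apply, ← Finset.sum_add_distrib]
    refine Finset.sum_congr rfl fun t _ => ?_
    split_ifs <;> simp

/-- The multiplier picked up by sheet `s` along a loop around all finite branch points. -/
def pathSum : (Fin r → S → A) →+ (S → A) where
  toFun a s := ∑ i, a i (prefixPerm sigma i s)
  map_zero' := by funext s; simp
  map_add' a b := by funext s; simp [Finset.sum_add_distrib]

/-- Change of the choice of root on each sheet. -/
def coboundary : (S → A) →+ (Fin r → S → A) where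
  toFun φ i s := φ (sigma i s) - φ s
  map_zero' := by funext i s; simp
  map_add' φ ψ := by funext i s; simp only [Pi.add_apply]; abel

/-- Cochains unramified at every finite branch point and at infinity. -/
def unramified : AddSubgroup (Fin r → S → A) where
  carrier := {a | (∀ i, cycleSum A (sigma i) (a i) = 0) ∧
    cycleSum A (totalPerm sigma) (pathSum sigma A a) = 0}
  zero_mem' := by simp
  add_mem' := by
    rintro a b ⟨ha, ha'⟩ ⟨hb, hb'⟩
    exact ⟨fun i => by rw [Pi.add_apply, map_add, ha i, hb i, add_zero],
      by rw [map_add, map_add, ha', hb', add_zero]⟩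
  neg_mem' := by
    rintro a ⟨ha, ha'⟩
    exact ⟨fun i => by rw [Pi.neg_apply, map_neg, ha i, neg_zero],
      by rw [map_neg, map_neg, ha', neg_zero]⟩

/-- Unramified cochains modulo coboundaries. -/
abbrev MonodromyH : Type _ :=
  unramified sigma A ⧸ (coboundary sigma A).range.addSubgroupOf (unramified sigma A)

variable {A}

theorem cycleSum_apply (f : Equiv.Perm S) [DecidableEq (Quotient (Equiv.Perm.SameCycle.setoid f))]
    (v : S → A) (q : Quotient (Equiv.Perm.SameCycle.setoid f)) :
    cycleSum A f v q = ∑ t, if cycleClass f t = q then v t else 0 := by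
  simp only [cycleSum, AddMonoidHom.coe_mk, ZeroHom.coe_mk]
  refine Finset.sum_congr rfl fun t _ => ?_
  congr

theorem cycleSum_cycleClass (f : Equiv.Perm S) (v : S → A) (s : S) :
    cycleSum A f v (cycleClass f s) =
      ∑ k ∈ Finset.range (Function.minimalPeriod f s), v (f^[k] s) := by
  classical
  rw [cycleSum_apply, ← Finset.sum_filter]
  symm
  refine Finset.sum_bij (fun k _ => f^[k] s) ?_ ?_ ?_ (fun k _ => rfl)
  · intro k _
    rw [Finset.mem_filter, ← Equiv.Perm.coe_pow, cycleClass_eq_iff,
      Equiv.Perm.sameCycle_pow_left]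
    exact ⟨Finset.mem_univ _, Equiv.Perm.SameCycle.refl f s⟩
  · intro k hk l hl h
    exact Function.iterate_injOn_Iio_minimalPeriod (Finset.mem_range.mp hk)
      (Finset.mem_range.mp hl) h
  · intro t ht
    rw [Finset.mem_filter, cycleClass_eq_iff] at ht
    obtain ⟨k, hk⟩ := ht.2.symm.exists_nat_pow_eq
    rw [Equiv.Perm.coe_pow] at hk
    refine ⟨k % Function.minimalPeriod f s, Finset.mem_range.mpr (Nat.mod_lt _ ?_), ?_⟩
    · exact Function.IsPeriodicPt.minimalPeriod_pos (orderOf_pos f)
        (show f^[orderOf f] s = s by rw [← Equiv.Perm.coe_pow, pow_orderOf_eq_one]; rfl)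
    · rw [Function.iterate_mod_minimalPeriod_eq, hk]

theorem cycleSum_eq_zero_iff (f : Equiv.Perm S) (v : S → A) :
    cycleSum A f v = 0 ↔
      ∀ s, ∑ k ∈ Finset.range (Function.minimalPeriod f s), v (f^[k] s) = 0 := by
  constructor
  · intro h s; rw [← cycleSum_cycleClass, h]; rfl
  · intro h
    funext q
    obtain ⟨s, rfl⟩ := cycleClass_surjective f q
    rw [cycleSum_cycleClass, h]; rfl

omit [Fintype S] in
@[simp]
theorem pathSum_apply (a : Fin r → S → A) (s : S) :
    pathSum sigma A a s = ∑ i, a i (prefixPerm sigma i s) := rfl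

omit [Fintype S] in
@[simp]
theorem coboundary_apply (φ : S → A) (i : Fin r) (s : S) :
    coboundary sigma A φ i s = φ (sigma i s) - φ s := rfl

theorem mem_unramified {a : Fin r → S → A} :
    a ∈ unramified sigma A ↔ (∀ i, cycleSum A (sigma i) (a i) = 0) ∧
      cycleSum A (totalPerm sigma) (pathSum sigma A a) = 0 := Iff.rfl

theorem cycleSum_comp_sub (f : Equiv.Perm S) (φ : S → A) :
    cycleSum A f (fun s => φ (f s) - φ s) = 0 := by
  classical
  funext q
  have h : (fun s => φ (f s) - φ s) = φ ∘ f - φ := rfl
  rw [h, map_sub, Pi.sub_apply, Pi.zero_apply, sub_eq_zero, cycleSum_apply, cycleSum_apply,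
    ← Equiv.sum_comp f (fun t => if cycleClass f t = q then φ t else 0)]
  simp [cycleClass_apply]

omit [Fintype S] in
theorem pathSum_coboundary (φ : S → A) (s : S) :
    pathSum sigma A (coboundary sigma A φ) s = φ (totalPerm sigma s) - φ s := by
  rw [pathSum_apply]
  calc ∑ i : Fin r, (φ (sigma i (prefixPerm sigma i s)) - φ (prefixPerm sigma i s))
      = ∑ i : Fin r, (φ (prefixPerm sigma ((i : ℕ) + 1) s) - φ (prefixPerm sigma i s)) := by
        simp [prefixPerm_succ]
    _ = φ (prefixPerm sigma r s) - φ (prefixPerm sigma 0 s) := by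
        rw [Fin.sum_univ_eq_sum_range
          (fun k => φ (prefixPerm sigma (k + 1) s) - φ (prefixPerm sigma k s)) r,
          Finset.sum_range_sub (fun k => φ (prefixPerm sigma k s))]
    _ = φ (totalPerm sigma s) - φ s := by simp [totalPerm]

theorem coboundary_range_le : (coboundary sigma A).range ≤ unramified sigma A := by
  rintro _ ⟨φ, rfl⟩
  refine ⟨fun i => cycleSum_comp_sub (sigma i) φ, ?_⟩
  rw [funext (pathSum_coboundary sigma φ)]
  exact cycleSum_comp_sub _ φ

variable (S) in
/-- Vertices of the incidence graph: cycles at finite branch points and cycles at infinity. -/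
private abbrev CycleVertex (sigma : Fin r → Equiv.Perm S) : Type _ :=
  (Σ i, Quotient (Equiv.Perm.SameCycle.setoid (sigma i))) ⊕
    Quotient (Equiv.Perm.SameCycle.setoid (totalPerm sigma))

private def headVertex (e : Fin r × S) : CycleVertex S sigma :=
  Sum.inl ⟨e.1, cycleClass (sigma e.1) e.2⟩

private def tailVertex (e : Fin r × S) : CycleVertex S sigma :=
  Sum.inr (cycleClass (totalPerm sigma) ((prefixPerm sigma e.1).symm e.2))

private theorem mem_ker_iff [Fintype (CycleVertex S sigma)] (a : Fin r × S → A) :
    a ∈ (graphBoundary A (headVertex sigma) (tailVertex sigma)).ker ↔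
      Function.curry a ∈ unramified sigma A := by
  classical
  have hl : ∀ (i : Fin r) (q : Quotient (Equiv.Perm.SameCycle.setoid (sigma i))),
      graphBoundary A (headVertex sigma) (tailVertex sigma) a (Sum.inl ⟨i, q⟩) =
        cycleSum A (sigma i) (fun t => a (i, t)) q := by
    intro i q
    rw [graphBoundary_apply, cycleSum_apply, Fintype.sum_prod_type]
    rw [Finset.sum_eq_single i (fun j _ hj => by simp [headVertex, tailVertex, hj])
      (fun h => absurd (Finset.mem_univ i) h)]
    simp [headVertex, tailVertex]
  have hr : ∀ q : Quotient (Equiv.Perm.SameCycle.setoid (totalPerm sigma)),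
      graphBoundary A (headVertex sigma) (tailVertex sigma) a (Sum.inr q) =
        -cycleSum A (totalPerm sigma) (pathSum sigma A (Function.curry a)) q := by
    intro q
    rw [graphBoundary_apply, cycleSum_apply, Fintype.sum_prod_type]
    simp only [pathSum_apply, Function.curry_apply, headVertex, tailVertex, reduceCtorEq,
      if_false, zero_sub, Sum.inr.injEq, Finset.sum_neg_distrib, neg_inj]
    calc ∑ i : Fin r, ∑ t : S,
          (if cycleClass (totalPerm sigma) ((prefixPerm sigma i).symm t) = q then a (i, t) else 0)
        = ∑ i : Fin r, ∑ t : S, (if cycleClass (totalPerm sigma) t = q then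
            a (i, prefixPerm sigma i t) else 0) := by
          refine Finset.sum_congr rfl fun i _ => ?_
          rw [← Equiv.sum_comp (prefixPerm sigma i)]
          simp
      _ = ∑ t : S, ∑ i : Fin r, (if cycleClass (totalPerm sigma) t = q then
            a (i, prefixPerm sigma i t) else 0) := Finset.sum_comm
      _ = _ := Finset.sum_congr rfl fun t _ => by split_ifs <;> simp
  constructor
  · intro h
    refine ⟨fun i => funext fun q => ?_, funext fun q => ?_⟩
    · have := congrFun h (Sum.inl ⟨i, q⟩)
      rwa [hl] at this
    · have := congrFun h (Sum.inr q)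
      rw [hr, Pi.zero_apply, neg_eq_zero] at this
      exact this
  · rintro ⟨h₁, h₂⟩
    funext v
    rcases v with ⟨i, q⟩ | q
    · rw [hl]; exact congrFun (h₁ i) q
    · rw [hr, h₂]; simp

/-- The subgroup generated by the monodromy acts transitively on the sheets. -/
def IsTransitiveMonodromy : Prop :=
  ∀ s t : S, ∃ g ∈ Subgroup.closure (Set.range sigma), g s = t

omit [Fintype S] in
private theorem connected (htrans : IsTransitiveMonodromy sigma) (u v : CycleVertex S sigma) :
    Relation.EqvGen (fun x y => ∃ e, headVertex sigma e = x ∧ tailVertex sigma e = y) u v := by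
  let R := Relation.EqvGen (fun x y => ∃ e, headVertex sigma e = x ∧ tailVertex sigma e = y)
  let P : S → CycleVertex S sigma := fun s => Sum.inr (cycleClass (totalPerm sigma) s)
  let G : Subgroup (Equiv.Perm S) :=
    { carrier := {g | ∀ s, R (P s) (P (g s))}
      one_mem' := fun s => Relation.EqvGen.refl _
      mul_mem' := fun {g h} hg hh s => Relation.EqvGen.trans _ _ _ (hh s) (hg (h s))
      inv_mem' := fun {g} hg s => by
        have := hg (g⁻¹ s)
        rw [Equiv.Perm.inv_def, Equiv.apply_symm_apply] at this
        exact Relation.EqvGen.symm _ _ this }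
  have hedge : ∀ (i : Fin r) (t : S),
      R (Sum.inl ⟨i, cycleClass (sigma i) t⟩) (P ((prefixPerm sigma i).symm t)) :=
    fun i t => Relation.EqvGen.rel _ _ ⟨(i, t), rfl, rfl⟩
  have hg : ∀ i : Fin r, (prefixPerm sigma i)⁻¹ * sigma i * prefixPerm sigma i ∈ G := by
    intro i s
    have h₁ := hedge i (prefixPerm sigma i s)
    have h₂ := hedge i (sigma i (prefixPerm sigma i s))
    rw [Equiv.symm_apply_apply] at h₁
    rw [cycleClass_apply] at h₂
    exact Relation.EqvGen.trans _ _ _ (Relation.EqvGen.symm _ _ h₁) h₂
  have hpre : ∀ k, k ≤ r → prefixPerm sigma k ∈ G := by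
    intro k
    induction k with
    | zero => exact fun _ => G.one_mem
    | succ k ih =>
      intro hk
      have h := G.mul_mem (ih (by omega)) (hg ⟨k, by omega⟩)
      rw [show prefixPerm sigma (k + 1) = sigma ⟨k, by omega⟩ * prefixPerm sigma k from
        prefixPerm_succ sigma ⟨k, by omega⟩]
      simpa [mul_assoc] using h
  have hgen : Subgroup.closure (Set.range sigma) ≤ G := by
    rw [Subgroup.closure_le]
    rintro _ ⟨i, rfl⟩
    have h := G.mul_mem (G.mul_mem (hpre i i.2.le) (hg i)) (G.inv_mem (hpre i i.2.le))
    simpa [mul_assoc] using h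
  have hanchor : ∀ w : CycleVertex S sigma, ∃ s, R w (P s) := by
    rintro (⟨i, q⟩ | q)
    · obtain ⟨t, rfl⟩ := cycleClass_surjective (sigma i) q
      exact ⟨_, hedge i t⟩
    · obtain ⟨t, rfl⟩ := cycleClass_surjective (totalPerm sigma) q
      exact ⟨t, Relation.EqvGen.refl _⟩
  obtain ⟨s, hs⟩ := hanchor u
  obtain ⟨t, ht⟩ := hanchor v
  obtain ⟨g, hgm, rfl⟩ := htrans s t
  exact Relation.EqvGen.trans _ _ _ hs
    (Relation.EqvGen.trans _ _ _ (hgen hgm s) (Relation.EqvGen.symm _ _ ht))

omit [Fintype S] in
theorem prefixPerm_r : prefixPerm sigma r = totalPerm sigma := rfl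

variable [Finite A]

theorem card_unramified_mul [Nonempty S] (htrans : IsTransitiveMonodromy sigma) :
    Nat.card (unramified sigma A) *
        Nat.card A ^ (∑ i, numCycles (sigma i) + numCycles (totalPerm sigma)) =
      Nat.card A ^ (r * Fintype.card S + 1) := by
  classical
  have := Fintype.ofFinite (CycleVertex S sigma)
  have : Nonempty (CycleVertex S sigma) :=
    ⟨Sum.inr (cycleClass (totalPerm sigma) (Classical.arbitrary S))⟩
  have h := card_ker_graphBoundary (A := A) (connected sigma htrans)
  have hV : Fintype.card (CycleVertex S sigma) =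
      ∑ i, numCycles (sigma i) + numCycles (totalPerm sigma) := by
    rw [← Nat.card_eq_fintype_card, Nat.card_sum, Nat.card_sigma]
    rfl
  have hK : Nat.card (graphBoundary A (headVertex sigma) (tailVertex sigma)).ker =
      Nat.card (unramified sigma A) :=
    Nat.card_congr ((Equiv.curry (Fin r) S A).subtypeEquiv fun a => mem_ker_iff sigma a)
  rw [hV, hK, Fintype.card_prod, Fintype.card_fin] at h
  exact h

omit [Finite A] in
theorem card_coboundary_mul [Nonempty S] (htrans : IsTransitiveMonodromy sigma) :
    Nat.card (coboundary sigma A).range * Nat.card A = Nat.card A ^ Fintype.card S := by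
  have h := (coboundary sigma A).ker.card_mul_index
  rw [AddSubgroup.index_ker, Nat.card_fun, Nat.card_eq_fintype_card (α := S)] at h
  let e : A ≃ (coboundary sigma A).ker :=
    { toFun := fun x => ⟨fun _ => x, by
        rw [AddMonoidHom.mem_ker]; funext i s; simp⟩
      invFun := fun φ => φ.1 (Classical.arbitrary S)
      left_inv := fun x => rfl
      right_inv := fun φ => by
        apply Subtype.ext
        funext t
        let G : Subgroup (Equiv.Perm S) :=
          { carrier := {g | ∀ s, φ.1 (g s) = φ.1 s}
            one_mem' := fun s => rfl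
            mul_mem' := fun {g h} hg hh s => (hg (h s)).trans (hh s)
            inv_mem' := fun {g} hg s => by
              rw [← hg (g⁻¹ s), Equiv.Perm.inv_def, Equiv.apply_symm_apply] }
        have hG : Subgroup.closure (Set.range sigma) ≤ G := by
          rw [Subgroup.closure_le]
          rintro _ ⟨i, rfl⟩ s
          have h' := congrFun (congrFun φ.2 i) s
          simpa [sub_eq_zero] using h'
        obtain ⟨g, hg, rfl⟩ := htrans (Classical.arbitrary S) t
        exact (hG hg _).symm }
  rw [← Nat.card_congr e] at h
  rw [mul_comm]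
  exact h

theorem card_monodromyH_mul [Nonempty S] (htrans : IsTransitiveMonodromy sigma) :
    Nat.card (MonodromyH sigma A) * Nat.card A ^
        (Fintype.card S + (∑ i, numCycles (sigma i) + numCycles (totalPerm sigma))) =
      Nat.card A ^ (r * Fintype.card S + 2) := by
  have h := ((coboundary sigma A).range.addSubgroupOf (unramified sigma A)).card_mul_index
  rw [Nat.card_congr (AddSubgroup.addSubgroupOfEquivOfLe (coboundary_range_le sigma)).toEquiv,
    AddSubgroup.index_eq_card] at h
  set V := ∑ i, numCycles (sigma i) + numCycles (totalPerm sigma)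
  calc Nat.card (MonodromyH sigma A) * Nat.card A ^ (Fintype.card S + V)
      = (Nat.card (coboundary sigma A).range * Nat.card (MonodromyH sigma A)) * Nat.card A ^ V *
          Nat.card A := by
        rw [pow_add, ← card_coboundary_mul (A := A) sigma htrans]; ring
    _ = Nat.card A ^ (r * Fintype.card S + 2) := by
        rw [h, card_unramified_mul sigma htrans]; ring

/-- The unramified classes form a group of order `|A| ^ (2g)`. -/
theorem card_monodromyH [Nonempty S] (htrans : IsTransitiveMonodromy sigma) (g : ℕ)
    (hg : 2 * (g : ℤ) - 2 = -2 * (Fintype.card S : ℤ) +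
      ∑ i, ((Fintype.card S : ℤ) - numCycles (sigma i)) +
        ((Fintype.card S : ℤ) - numCycles (totalPerm sigma))) :
    Nat.card (MonodromyH sigma A) = Nat.card A ^ (2 * g) := by
  have h := card_monodromyH_mul (A := A) sigma htrans
  rw [Finset.sum_sub_distrib, Finset.sum_const, Finset.card_univ, Fintype.card_fin,
    nsmul_eq_mul] at hg
  have hexp : r * Fintype.card S + 2 = 2 * g +
      (Fintype.card S + (∑ i, numCycles (sigma i) + numCycles (totalPerm sigma))) := by
    zify
    linarith
  rw [hexp, pow_add (Nat.card A) (2 * g)] at h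
  exact Nat.eq_of_mul_eq_mul_right (pow_pos Nat.card_pos _) h

end Fermat.Agent.Torsion
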